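import Fermat.Agent.HeckeFinite.Primitive

/-!
# Periods of cusp forms between cusps (modular symbols)

For a finite index `Γ ≤ SL(2, ℤ)`, a cusp form `f` of weight `n + 2`, an integral polynomial `P` of
degree `≤ n` and `g g' : SL(2, ℤ)`, `period f g g' P` is the integral of `f(τ) P(τ)` from `g' • ∞`
to `g • ∞`, realised as the difference of the primitives vanishing at the two cusps.
-/

set_option autoImplicit false

noncomputable section

open UpperHalfPlane Filter Topology Complex
open scoped MatrixGroups ModularForm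

namespace Fermat.Agent.HeckeFinite

open Classical in
/-- The primitive of `G` vanishing at `g • ∞` (junk `0` if there is none). -/
def prim (g : SL(2, ℤ)) (G : ℍ → ℂ) : ℍ → ℂ :=
  if h : ∃ F, IsPrimitiveAt g G F then h.choose else 0

lemma IsPrimitiveAt.prim_eq {g : SL(2, ℤ)} {G F : ℍ → ℂ} (hF : IsPrimitiveAt g G F) :
    prim g G = F := by
  have h : ∃ F, IsPrimitiveAt g G F := ⟨F, hF⟩
  rw [prim, dif_pos h]
  exact h.choose_spec.unique hF

/-- The integral of `f(τ) P(τ)` from `g' • ∞` to `g • ∞`, up to sign. -/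
def period (f : ℍ → ℂ) (g g' : SL(2, ℤ)) (P : Polynomial ℤ) : ℂ :=
  prim g (mulPoly f P) UpperHalfPlane.I - prim g' (mulPoly f P) UpperHalfPlane.I

/-- A period may be computed from any primitives vanishing at the two cusps, at any point. -/
lemma period_eq {f : ℍ → ℂ} {g g' : SL(2, ℤ)} {P : Polynomial ℤ} {F F' : ℍ → ℂ}
    (hF : IsPrimitiveAt g (mulPoly f P) F) (hF' : IsPrimitiveAt g' (mulPoly f P) F') (τ : ℍ) :
    period f g g' P = F τ - F' τ := by
  rw [period, hF.prim_eq, hF'.prim_eq]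
  exact sub_eq_sub_of_hasDerivAt hF.1 hF'.1 _ _

@[simp] lemma period_self (f : ℍ → ℂ) (g : SL(2, ℤ)) (P : Polynomial ℤ) : period f g g P = 0 :=
  sub_self _

lemma period_add_period (f : ℍ → ℂ) (g g' g'' : SL(2, ℤ)) (P : Polynomial ℤ) :
    period f g g' P + period f g' g'' P = period f g g'' P := by
  simp [period]

/-- `(τ ↦ f τ * P τ)` for `deg P ≤ n` is a combination of the monomial integrands. -/
lemma mulPoly_eq_sum {n : ℕ} (f : ℍ → ℂ) {P : Polynomial ℤ} (hP : P.natDegree ≤ n) :
    mulPoly f P = ∑ m ∈ Finset.range (n + 1), ((P.coeff m : ℤ) : ℂ) • mulPoly f (Polynomial.X ^ m) := by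
  funext τ
  simp only [mulPoly, Finset.sum_apply, Pi.smul_apply, smul_eq_mul, map_pow, Polynomial.aeval_X]
  rw [Polynomial.aeval_eq_sum_range' (Nat.lt_succ_of_le hP), Finset.mul_sum]
  exact Finset.sum_congr rfl fun m _ ↦ by rw [zsmul_eq_mul]; ring

lemma IsPrimitiveAt.sum {ι : Type*} (s : Finset ι) {g : SL(2, ℤ)} {G F : ι → ℍ → ℂ}
    (h : ∀ i ∈ s, IsPrimitiveAt g (G i) (F i)) :
    IsPrimitiveAt g (∑ i ∈ s, G i) (∑ i ∈ s, F i) := by
  classical
  induction s using Finset.induction_on with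
  | empty => simpa using IsPrimitiveAt.zero g
  | insert a s ha ih =>
    rw [Finset.sum_insert ha, Finset.sum_insert ha]
    exact (h a (Finset.mem_insert_self a s)).add (ih fun i hi ↦ h i (Finset.mem_insert_of_mem hi))

section CuspForm

variable {Γ : Subgroup (GL (Fin 2) ℝ)} [Γ.IsArithmetic] {n : ℕ}

lemma isPrimitiveAt_prim (f : CuspForm Γ ((n : ℤ) + 2)) {P : Polynomial ℤ}
    (hP : P.natDegree ≤ n) (g : SL(2, ℤ)) :
    IsPrimitiveAt g (mulPoly f P) (prim g (mulPoly f P)) := by
  obtain ⟨F, hF⟩ := exists_isPrimitiveAt f hP g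
  rwa [hF.prim_eq]

lemma period_add [Γ.HasDetOne] (f f' : CuspForm Γ ((n : ℤ) + 2)) (g g' : SL(2, ℤ))
    {P : Polynomial ℤ} (hP : P.natDegree ≤ n) :
    period ⇑(f + f') g g' P = period f g g' P + period f' g g' P := by
  have h : mulPoly ⇑(f + f') P = mulPoly f P + mulPoly f' P := by
    funext τ; simp [mulPoly, add_mul]
  simp only [period, h, ((isPrimitiveAt_prim f hP g).add (isPrimitiveAt_prim f' hP g)).prim_eq,
    ((isPrimitiveAt_prim f hP g').add (isPrimitiveAt_prim f' hP g')).prim_eq, Pi.add_apply]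
  ring

lemma period_smul [Γ.HasDetOne] (c : ℂ) (f : CuspForm Γ ((n : ℤ) + 2)) (g g' : SL(2, ℤ))
    {P : Polynomial ℤ} (hP : P.natDegree ≤ n) :
    period ⇑(c • f) g g' P = c * period f g g' P := by
  have h : mulPoly ⇑(c • f) P = c • mulPoly f P := by
    funext τ; simp [mulPoly, mul_assoc]
  simp only [period, h, ((isPrimitiveAt_prim f hP g).const_smul c).prim_eq,
    ((isPrimitiveAt_prim f hP g').const_smul c).prim_eq, Pi.smul_apply, smul_eq_mul]
  ring

/-- The period against an integral polynomial is an integral combination of monomial periods. -/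
lemma period_eq_sum (f : CuspForm Γ ((n : ℤ) + 2)) (g g' : SL(2, ℤ)) {P : Polynomial ℤ}
    (hP : P.natDegree ≤ n) :
    period f g g' P = ∑ m ∈ Finset.range (n + 1), P.coeff m • period f g g' (Polynomial.X ^ m) := by
  have h : ∀ g, IsPrimitiveAt g (mulPoly f P) (∑ m ∈ Finset.range (n + 1),
      ((P.coeff m : ℤ) : ℂ) • prim g (mulPoly f (Polynomial.X ^ m))) := fun g ↦ by
    rw [mulPoly_eq_sum (⇑f) hP]
    refine IsPrimitiveAt.sum _ fun m hm ↦ (isPrimitiveAt_prim f ?_ g).const_smul _
    simpa [Nat.lt_succ_iff] using hm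
  rw [period, (h g).prim_eq, (h g').prim_eq]
  simp only [Finset.sum_apply, Pi.smul_apply, smul_eq_mul, ← Finset.sum_sub_distrib, period,
    zsmul_eq_mul, mul_sub]

/-- Adjusting the lower cusp representative by an upper triangular element changes nothing. -/
lemma period_eq_zero_of_upper (f : CuspForm Γ ((n : ℤ) + 2)) (g : SL(2, ℤ)) {u : SL(2, ℤ)}
    (hu : u 1 0 = 0) {P : Polynomial ℤ} (hP : P.natDegree ≤ n) :
    period f (g * u) g P = 0 := by
  have h : IsPrimitiveAt (g * u) (mulPoly f P) (prim g (mulPoly f P)) := by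
    simpa [denom] using IsPrimitiveAt.comp (g := g * u) (g' := g) (α := 1)
      (u := ((u : SL(2, ℤ)) : GL (Fin 2) ℝ)) (by simp) (by simp [hu]) (by simp) (by simp)
      (isPrimitiveAt_prim f hP g)
  rw [period, h.prim_eq, sub_self]

/-- Pulling back along a `γ` fixing `f`: the period from `γg'` to `γg` is that of `P|γ`. -/
lemma period_smul_cusps (f : CuspForm Γ ((n : ℤ) + 2)) {γ : SL(2, ℤ)}
    (hγ : ⇑f ∣[(n : ℤ) + 2] γ = ⇑f) (g g' : SL(2, ℤ)) {P : Polynomial ℤ} (hP : P.natDegree ≤ n) :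
    period f (γ * g) (γ * g') P = period f g g' (polySlash n γ P) := by
  have h : ∀ g, IsPrimitiveAt g (mulPoly f (polySlash n γ P))
      (fun τ ↦ prim (γ * g) (mulPoly f P) (γ • τ)) := fun g ↦ by
    have h' := IsPrimitiveAt.comp (g := g) (g' := γ * g) (α := ((γ : SL(2, ℤ)) : GL (Fin 2) ℝ))
      (u := 1) (by simp) (by simp) (by simp) (by simp) (isPrimitiveAt_prim f hP (γ * g))
    convert h' using 1
    · funext τ
      have hd : denom (γ : GL (Fin 2) ℝ) (τ : ℂ) ≠ 0 := denom_ne_zero _ τ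
      change _ = mulPoly f P (γ • τ) * _
      rw [mulPoly, mulPoly, aeval_polySlash γ hP, ← congr_fun hγ τ, ModularForm.SL_slash_apply,
        zpow_neg, zpow_add₀ hd, zpow_natCast]
      simp
      field_simp
    · rfl
  rw [period_eq (h g) (h g') UpperHalfPlane.I]
  exact (period_eq (isPrimitiveAt_prim f hP _) (isPrimitiveAt_prim f hP _) _)

/-- The period, as a linear functional on cusp forms. -/
def periodLin [Γ.HasDetOne] (g g' : SL(2, ℤ)) (P : Polynomial ℤ) (hP : P.natDegree ≤ n) :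
    Module.Dual ℂ (CuspForm Γ ((n : ℤ) + 2)) where
  toFun f := period f g g' P
  map_add' f f' := period_add f f' g g' hP
  map_smul' c f := period_smul c f g g' hP

@[simp] lemma periodLin_apply [Γ.HasDetOne] (g g' : SL(2, ℤ)) (P : Polynomial ℤ)
    (hP : P.natDegree ≤ n) (f : CuspForm Γ ((n : ℤ) + 2)) :
    periodLin g g' P hP f = period f g g' P := rfl

end CuspForm

end Fermat.Agent.HeckeFinite
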