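import Mathlib.NumberTheory.ModularForms.CuspFormSubmodule
import Mathlib.NumberTheory.ModularForms.NormTrace
import Fermat.Agent.HeckeFinite.Periods

/-!
# Periods separate cusp forms

If all periods of a cusp form of weight `n + 2` between cusps vanish, then its Eichler integral is
a cusp form of weight `-n`, hence zero, hence so is the form.
-/

set_option autoImplicit false

noncomputable section

open UpperHalfPlane Filter Topology Complex
open scoped MatrixGroups ModularForm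

namespace Fermat.Agent.HeckeFinite

/-- A cusp form of weight `≤ 0` on an arithmetic subgroup vanishes. -/
lemma cuspForm_eq_zero_of_nonpos {Γ : Subgroup (GL (Fin 2) ℝ)} [Γ.IsArithmetic] [Γ.HasDetOne]
    {k : ℤ} (hk : k ≤ 0) (f : CuspForm Γ k) : f = 0 := by
  apply CuspForm.toModularFormₗ_injective
  rw [map_zero]
  rcases hk.lt_or_eq with hk | rfl
  · exact ModularForm.isZero_of_neg_weight hk _
  · obtain ⟨c, hc⟩ := ModularForm.eq_const_of_weight_zero (CuspForm.toModularFormₗ f)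
    have hf : ⇑f = fun _ ↦ c := hc
    have h0 : IsZeroAtImInfty (⇑f) := CuspFormClass.zero_at_infty f
    rw [hf, IsZeroAtImInfty, ZeroAtFilter, tendsto_const_nhds_iff] at h0
    ext τ
    simpa [h0] using congr_fun hf τ

/-- The `j`-th Eichler integral built from the primitives at `∞` of `h(τ) τⁱ`. -/
def eichler (h : ℍ → ℂ) (j : ℕ) : ℍ → ℂ :=
  ∑ i ∈ Finset.range (j + 1),
    (j.choose i : ℂ) • mulPoly (prim 1 (mulPoly h (Polynomial.X ^ i))) ((-Polynomial.X) ^ (j - i))

lemma eichler_apply (h : ℍ → ℂ) (j : ℕ) (τ : ℍ) :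
    eichler h j τ = ∑ i ∈ Finset.range (j + 1), (j.choose i : ℂ) *
      (prim 1 (mulPoly h (Polynomial.X ^ i)) τ * (-(τ : ℂ)) ^ (j - i)) := by
  simp [eichler, mulPoly]

lemma eichler_zero (h : ℍ → ℂ) : eichler h 0 = prim 1 (mulPoly h (Polynomial.X ^ 0)) := by
  funext τ; simp [eichler_apply]

section derivative

variable {Γ : Subgroup (GL (Fin 2) ℝ)} [Γ.IsArithmetic] {n : ℕ} (f : CuspForm Γ ((n : ℤ) + 2))

lemma hasDerivAt_eichler {j : ℕ} (hj : j + 1 ≤ n) (τ : ℍ) :
    HasDerivAt (eichler f (j + 1) ∘ ofComplex) (-(j + 1 : ℂ) * eichler f j τ) (τ : ℂ) := by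
  set F := fun i ↦ prim 1 (mulPoly f (Polynomial.X ^ i)) with hFdef
  have hF : ∀ i ≤ n, HasDerivAt (F i ∘ ofComplex) (f τ * (τ : ℂ) ^ i) (τ : ℂ) := fun i hi ↦ by
    simpa [mulPoly, hFdef] using (isPrimitiveAt_prim f (P := Polynomial.X ^ i) (by simpa using hi) 1).1 τ
  have hev : eichler f (j + 1) ∘ ofComplex =ᶠ[𝓝 (τ : ℂ)]
      fun z ↦ ∑ i ∈ Finset.range (j + 2),
        ((j + 1).choose i : ℂ) * (F i (ofComplex z) * (-z) ^ (j + 1 - i)) := by
    filter_upwards [isOpen_upperHalfPlaneSet.mem_nhds τ.im_pos] with z hz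
    simp [eichler_apply, ofComplex_apply_of_im_pos hz, hFdef]
  refine HasDerivAt.congr_of_eventuallyEq ?_ hev
  have hd := HasDerivAt.fun_sum (u := Finset.range (j + 2)) fun i hi ↦
    (((hF i (by have := Finset.mem_range.mp hi; omega)).mul
      ((hasDerivAt_id (τ : ℂ)).neg.pow (j + 1 - i))).const_mul ((j + 1).choose i : ℂ))
  refine hd.congr_deriv ?_
  simp only [mul_add, Finset.sum_add_distrib, Function.comp_apply, ofComplex_apply, id_eq,
    Pi.neg_apply, Pi.pow_apply]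
  have h1 : ∑ i ∈ Finset.range (j + 2),
      ((j + 1).choose i : ℂ) * (f τ * (τ : ℂ) ^ i * (-(τ : ℂ)) ^ (j + 1 - i)) = 0 := by
    have hb := add_pow (τ : ℂ) (-(τ : ℂ)) (j + 1)
    rw [add_neg_cancel, zero_pow (by omega)] at hb
    rw [← mul_zero (f τ), hb, Finset.mul_sum]
    exact Finset.sum_congr rfl fun i _ ↦ by ring
  rw [h1, zero_add, eichler_apply, Finset.mul_sum, Finset.sum_range_succ]
  simp only [Nat.sub_self, Nat.cast_zero, zero_mul, mul_zero, add_zero]
  refine Finset.sum_congr rfl fun i hi ↦ ?_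
  have hi : i ≤ j := by simpa [Nat.lt_succ_iff] using hi
  have hc : ((j + 1).choose i : ℂ) * ((j + 1 - i : ℕ) : ℂ) = (j + 1 : ℂ) * (j.choose i : ℂ) := by
    exact_mod_cast (Nat.choose_mul_succ_eq j i).symm.trans (mul_comm _ _)
  have e : j + 1 - i - 1 = j - i := by omega
  rw [e, show prim 1 (mulPoly (⇑f) (Polynomial.X ^ i)) τ = F i τ from rfl]
  linear_combination (-F i τ * (-(τ : ℂ)) ^ (j - i)) * hc

lemma eichler_eq_zero_down (hn : eichler f n = 0) : ∀ i ≤ n, eichler f (n - i) = 0 := by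
  intro i
  induction i with
  | zero => exact fun _ ↦ hn
  | succ i ih =>
    intro hi
    funext τ
    have hd := hasDerivAt_eichler f (j := n - (i + 1)) (by omega) τ
    rw [show n - (i + 1) + 1 = n - i by omega, ih (by omega)] at hd
    have h0 : HasDerivAt ((0 : ℍ → ℂ) ∘ ofComplex) 0 (τ : ℂ) :=
      hasDerivAt_const (τ : ℂ) (0 : ℂ)
    have := hd.unique h0
    have hne : (-((n - (i + 1) : ℕ) + 1 : ℂ)) ≠ 0 :=
      neg_ne_zero.mpr (Nat.cast_add_one_ne_zero _)
    simpa [hne] using (mul_eq_zero.mp this).resolve_left hne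

/-- If the top Eichler integral vanishes, so does the form. -/
lemma eq_zero_of_eichler_eq_zero (hn : eichler f n = 0) : f = 0 := by
  ext τ
  have h := eichler_eq_zero_down f hn n le_rfl
  rw [Nat.sub_self, eichler_zero] at h
  have hd := (isPrimitiveAt_prim f (P := Polynomial.X ^ 0) (by simp) 1).1 τ
  rw [h] at hd
  have h0 : HasDerivAt ((0 : ℍ → ℂ) ∘ ofComplex) 0 (τ : ℂ) :=
    hasDerivAt_const (τ : ℂ) (0 : ℂ)
  simpa [mulPoly] using hd.unique h0

lemma hasStripDecay_eichler_slash (g : SL(2, ℤ)) :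
    HasStripDecay (eichler (⇑f ∣[(n : ℤ) + 2] g) n) := by
  have hdiff : DifferentiableOn ℂ ((⇑f ∣[(n : ℤ) + 2] g) ∘ ofComplex) upperHalfPlaneSet :=
    UpperHalfPlane.mdifferentiable_iff.mp (f.holo'.slash _ _)
  refine HasStripDecay.sum _ fun i _ ↦ HasStripDecay.const_smul _ (HasStripDecay.mulPoly ?_ _)
  have hG := (hasStripDecay_slash f g).mulPoly (Polynomial.X ^ i)
  obtain ⟨E, hE⟩ := exists_isPrimitiveAt_one (differentiableOn_mulPoly hdiff _) hG
  rw [hE.prim_eq]
  exact hG.primitive hE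

/-- If the periods of `f` at all cusps vanish, slashing the Eichler integral of `f` by any
`g ∈ SL(2, ℤ)` gives the Eichler integral of `f ∣ g`. -/
lemma eichler_slash (h : ∀ (g g' : SL(2, ℤ)) (m : ℕ), m ≤ n → period f g g' (Polynomial.X ^ m) = 0)
    (g : SL(2, ℤ)) :
    eichler f n ∣[-(n : ℤ)] g = eichler (⇑f ∣[(n : ℤ) + 2] g) n := by
  set hg := ⇑f ∣[(n : ℤ) + 2] g with hgdef
  set F := fun i ↦ prim 1 (mulPoly f (Polynomial.X ^ i)) with hFdef
  set E := fun i ↦ prim 1 (mulPoly hg (Polynomial.X ^ i)) with hEdef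
  have hF : ∀ i ≤ n, IsPrimitiveAt g (mulPoly f (Polynomial.X ^ i)) (F i) := fun i hi ↦ by
    have hg' := isPrimitiveAt_prim f (P := Polynomial.X ^ i) (by simpa using hi) g
    have h1 := isPrimitiveAt_prim f (P := Polynomial.X ^ i) (by simpa using hi) 1
    have : prim g (mulPoly f (Polynomial.X ^ i)) = F i := funext fun τ ↦
      sub_eq_zero.mp ((period_eq hg' h1 τ).symm.trans (h g 1 i hi))
    rwa [this] at hg'
  have hdiff : DifferentiableOn ℂ (hg ∘ ofComplex) upperHalfPlaneSet :=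
    UpperHalfPlane.mdifferentiable_iff.mp (f.holo'.slash _ _)
  have hE : ∀ i, IsPrimitiveAt 1 (mulPoly hg (Polynomial.X ^ i)) (E i) := fun i ↦ by
    obtain ⟨E', hE'⟩ := exists_isPrimitiveAt_one (differentiableOn_mulPoly hdiff _)
      ((hasStripDecay_slash f g).mulPoly (Polynomial.X ^ i))
    simpa only [hEdef, hE'.prim_eq] using hE'
  funext τ
  set d : ℂ := denom (g : GL (Fin 2) ℝ) (τ : ℂ) with hd_def
  set w : ℂ := ((g • τ : ℍ) : ℂ) with hw
  have hd : d ≠ 0 := denom_ne_zero _ τ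
  -- the primitive of `σ ↦ f(σ) (σ - w)ⁿ`, pulled back by `g`
  have hA0 := IsPrimitiveAt.sum (Finset.range (n + 1)) fun i hi ↦
    (hF i (by simpa [Nat.lt_succ_iff] using hi)).const_smul
      ((n.choose i : ℂ) * (-w) ^ (n - i) * d ^ n)
  have hA := IsPrimitiveAt.comp (g := 1) (g' := g) (α := ((g : SL(2, ℤ)) : GL (Fin 2) ℝ))
    (u := 1) (by simp) (by simp) (by simp) (by simp) hA0
  have hB := IsPrimitiveAt.sum (Finset.range (n + 1)) fun i (_ : i ∈ Finset.range (n + 1)) ↦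
    (hE i).const_smul ((n.choose i : ℂ) * (-(τ : ℂ)) ^ (n - i))
  have key : (fun σ ↦ (∑ i ∈ Finset.range (n + 1),
        ((n.choose i : ℂ) * (-w) ^ (n - i) * d ^ n) • F i) (((g : SL(2, ℤ)) : GL (Fin 2) ℝ) • σ)) =
      ∑ i ∈ Finset.range (n + 1), ((n.choose i : ℂ) * (-(τ : ℂ)) ^ (n - i)) • E i := by
    refine IsPrimitiveAt.unique ?_ hB
    convert hA using 1
    funext σ
    set e : ℂ := denom (g : GL (Fin 2) ℝ) (σ : ℂ) with he_def
    have he : e ≠ 0 := denom_ne_zero _ σ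
    have hsub : (σ : ℂ) - τ = (((g • σ : ℍ) : ℂ) - w) * (e * d) := by
      rw [hw, show ((g • σ : ℍ) : ℂ) = num (g : GL (Fin 2) ℝ) σ / e from
          coe_smul_of_det_pos (by simp) σ,
        show ((g • τ : ℍ) : ℂ) = num (g : GL (Fin 2) ℝ) τ / d from coe_smul_of_det_pos (by simp) τ]
      have hdet : (g 0 0 : ℂ) * g 1 1 - g 0 1 * g 1 0 = 1 := by
        exact_mod_cast (Matrix.det_fin_two _).symm.trans g.det_coe
      field_simp
      simp [e, d, num, denom]
      linear_combination ((τ : ℂ) - σ) * hdet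
    have hL : ∀ (a b : ℂ) (G : ℍ → ℂ) (z : ℍ), ∑ i ∈ Finset.range (n + 1),
        (((n.choose i : ℂ) * (-a) ^ (n - i) * b) • mulPoly G (Polynomial.X ^ i)) z =
          G z * (((z : ℂ) - a) ^ n * b) := fun a b G z ↦ by
      rw [sub_eq_add_neg, add_pow, Finset.sum_mul, Finset.mul_sum]
      refine Finset.sum_congr rfl fun i _ ↦ ?_
      simp [mulPoly]; ring
    have hR := hL (τ : ℂ) 1 hg σ
    simp only [mul_one] at hR
    simp only [Finset.sum_apply]
    rw [hR, hL w (d ^ n) (⇑f), hgdef, ModularForm.SL_slash_apply, hsub]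
    change _ = f (g • σ) * ((((g • σ : ℍ) : ℂ) - w) ^ n * d ^ n) * _
    rw [← he_def, zpow_neg, zpow_add₀ he, zpow_natCast, mul_pow, mul_pow]
    simp
    field_simp
  have hval := congr_fun key τ
  simp only [Finset.sum_apply, Pi.smul_apply, smul_eq_mul] at hval
  rw [ModularForm.SL_slash_apply, eichler_apply, eichler_apply, neg_neg, zpow_natCast,
    Finset.sum_mul]
  refine Eq.trans ?_ (hval.trans ?_)
  · exact Finset.sum_congr rfl fun i _ ↦ by
      rw [show (((g : SL(2, ℤ)) : GL (Fin 2) ℝ) • τ : ℍ) = g • τ from rfl, ← hd_def, ← hw]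
      simp [hFdef]; ring
  · exact Finset.sum_congr rfl fun i _ ↦ by simp [hEdef]; ring

end derivative

section separating

variable {Γ : Subgroup SL(2, ℤ)} [Γ.FiniteIndex] {n : ℕ}

/-- A periodic function with exponential decay in strips tends to zero at `i∞`. -/
lemma isZeroAtImInfty_of_hasStripDecay {h : ℍ → ℂ} {d : ℕ} (hd : 0 < d)
    (hper : ∀ (τ : ℍ) (m : ℤ), h (((m : ℝ) * d) +ᵥ τ) = h τ) (hdec : HasStripDecay h) :
    IsZeroAtImInfty h := by
  obtain ⟨C, c, hc, hev⟩ := hdec d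
  have hlim : Tendsto (fun y : ℝ ↦ C * Real.exp (-c * y)) atTop (𝓝 0) := by
    have : Tendsto (fun y : ℝ ↦ Real.exp (-c * y)) atTop (𝓝 0) :=
      Real.tendsto_exp_atBot.comp (tendsto_id.const_mul_atTop_of_neg (by linarith))
    simpa using this.const_mul C
  refine squeeze_zero_norm' ?_ (hlim.comp tendsto_comap)
  refine (tendsto_comap.eventually hev).mono fun τ hτ ↦ ?_
  have hd' : (0 : ℝ) < d := by exact_mod_cast hd
  set m : ℤ := ⌊τ.re / d⌋ with hm
  have h1 := Int.floor_le (τ.re / d)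
  have h2 := Int.lt_floor_add_one (τ.re / d)
  rw [le_div_iff₀ hd', ← hm] at h1
  rw [div_lt_iff₀ hd', ← hm] at h2
  have hx : |τ.re - m * d| ≤ d := abs_le.mpr ⟨by linarith, by linarith⟩
  have hv : (((-m : ℤ) : ℝ) * d) +ᵥ τ = vert (τ.re - m * d) τ.im := by
    refine UpperHalfPlane.ext ?_
    rw [coe_vadd, coe_vert τ.im_pos]
    apply Complex.ext <;> simp; ring
  have h3 := hτ _ hx
  rwa [← hv, hper] at h3

/-- **Periods separate cusp forms.** -/
theorem eq_zero_of_period_eq_zero (f : CuspForm Γ ((n : ℤ) + 2))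
    (h : ∀ (g g' : SL(2, ℤ)) (m : ℕ), m ≤ n → period f g g' (Polynomial.X ^ m) = 0) : f = 0 := by
  have hinv : ∀ γ ∈ Γ, ⇑f ∣[(n : ℤ) + 2] γ = ⇑f := fun γ hγ ↦
    SlashInvariantFormClass.slash_action_eq f (γ : GL (Fin 2) ℝ) ⟨γ, hγ, rfl⟩
  obtain ⟨d, hd, hT⟩ : ∃ d : ℕ, 0 < d ∧
      ∀ (g : SL(2, ℤ)) (m : ℤ), g * ModularGroup.T ^ (m * (d : ℤ)) * g⁻¹ ∈ Γ := by
    refine ⟨Γ.normalCore.index, Nat.pos_of_ne_zero Subgroup.FiniteIndex.index_ne_zero,
      fun g m ↦ Γ.normalCore_le ((Subgroup.normalCore_normal Γ).conj_mem _ ?_ g)⟩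
    rw [mul_comm, zpow_mul, zpow_natCast]
    exact zpow_mem (Subgroup.pow_index_mem _ _) m
  have hsl : ∀ γ ∈ Γ, eichler f n ∣[-(n : ℤ)] γ = eichler f n := fun γ hγ ↦ by
    rw [eichler_slash f h γ, hinv γ hγ]
  have hzero : ∀ g : SL(2, ℤ), IsZeroAtImInfty (eichler f n ∣[-(n : ℤ)] g) := fun g ↦ by
    refine isZeroAtImInfty_of_hasStripDecay hd (fun τ m ↦ ?_)
      (eichler_slash f h g ▸ hasStripDecay_eichler_slash f g)
    have hTf : (eichler f n ∣[-(n : ℤ)] g) ∣[-(n : ℤ)] (ModularGroup.T ^ (m * (d : ℤ))) =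
        eichler f n ∣[-(n : ℤ)] g := by
      rw [← SlashAction.slash_mul,
        show g * ModularGroup.T ^ (m * (d : ℤ)) = g * ModularGroup.T ^ (m * (d : ℤ)) * g⁻¹ * g by
          group,
        SlashAction.slash_mul, hsl _ (hT g m)]
    have := congr_fun hTf τ
    rw [ModularForm.SL_slash_apply, modular_T_zpow_smul, Int.cast_mul, Int.cast_natCast] at this
    have hden : denom ((ModularGroup.T ^ (m * (d : ℤ)) : SL(2, ℤ)) : GL (Fin 2) ℝ) (τ : ℂ) = 1 := by
      simp [denom, ModularGroup.coe_T_zpow, -map_zpow]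
    rwa [hden, one_zpow, mul_one] at this
  let Φ : CuspForm Γ (-(n : ℤ)) :=
    { toFun := eichler f n
      slash_action_eq' := by
        rintro - ⟨γ, hγ, rfl⟩
        exact hsl γ hγ
      holo' := by
        refine UpperHalfPlane.mdifferentiable_iff.mpr fun z hz ↦ ?_
        refine DifferentiableAt.differentiableWithinAt ?_
        cases n with
        | zero =>
          have hd := ((isPrimitiveAt_prim f (P := Polynomial.X ^ 0) (by simp) 1).1
            ⟨z, hz⟩).differentiableAt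
          rw [← eichler_zero] at hd
          exact hd
        | succ j => exact (hasDerivAt_eichler f (le_refl (j + 1)) ⟨z, hz⟩).differentiableAt
      zero_at_cusps' := fun {c} hc ↦ by
        rw [Subgroup.IsArithmetic.isCusp_iff_isCusp_SL2Z] at hc
        rw [OnePoint.isZeroAt_iff_forall_SL2Z hc]
        exact fun g _ ↦ hzero g }
  have hΦ : Φ = 0 := cuspForm_eq_zero_of_nonpos (by omega) Φ
  exact eq_zero_of_eichler_eq_zero f (congrArg DFunLike.coe hΦ)

end separating

end Fermat.Agent.HeckeFinite
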