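import Fermat.Agent.HeckeFinite.Separating

/-!
# Cusp forms of odd or non-positive weight on `Γ₀(N)` vanish
-/

set_option autoImplicit false

noncomputable section

open UpperHalfPlane
open scoped MatrixGroups ModularForm

namespace Fermat.Agent.HeckeFinite

lemma neg_one_mem_Gamma0 (N : ℕ) : (-1 : SL(2, ℤ)) ∈ CongruenceSubgroup.Gamma0 N := by
  rw [CongruenceSubgroup.Gamma0_mem]
  simp

/-- A cusp form of odd weight on `Γ₀(N)` vanishes. -/
lemma cuspForm_eq_zero_of_odd {N : ℕ} {k : ℤ} (hk : Odd k)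
    (f : CuspForm (CongruenceSubgroup.Gamma0 N) k) : f = 0 := by
  ext τ
  have h : ⇑f ∣[k] (-1 : SL(2, ℤ)) = ⇑f :=
    SlashInvariantFormClass.slash_action_eq f ((-1 : SL(2, ℤ)) : GL (Fin 2) ℝ)
      ⟨_, neg_one_mem_Gamma0 N, rfl⟩
  have h' := congr_fun h τ
  have e : ((-1 : SL(2, ℤ)) • τ : ℍ) = τ := by
    refine UpperHalfPlane.ext ?_
    rw [coe_specialLinearGroup_apply]
    simp
  rw [ModularForm.SL_slash_apply, e] at h'
  simp [denom, hk.neg.neg_one_zpow] at h'
  rw [_root_.zero_apply]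
  linear_combination (-1 / 2 : ℂ) * h'

/-- For `k < 2` there are no nonzero cusp forms on `Γ₀(N)`. -/
lemma cuspForm_eq_zero_of_lt_two {N : ℕ} [NeZero N] {k : ℤ} (hk : k < 2)
    (f : CuspForm (CongruenceSubgroup.Gamma0 N) k) : f = 0 := by
  rcases (show k ≤ 0 ∨ k = 1 by omega) with hk0 | rfl
  · exact cuspForm_eq_zero_of_nonpos hk0 f
  · exact cuspForm_eq_zero_of_odd odd_one f

end Fermat.Agent.HeckeFinite
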