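import Fermat.Agent.HeckeFinite.Symbols
import Fermat.Agent.HeckeFinite.Separating
import Fermat.Agent.HeckeFinite.SmallWeight

/-!
# Finiteness of the Hecke algebra over `ℤ`

The Hecke algebra preserves the finitely generated lattice of modular symbols, which separates
cusp forms; hence it embeds into the endomorphisms of a finite free `ℤ`-module.
-/

set_option autoImplicit false

noncomputable section

open UpperHalfPlane CongruenceSubgroup
open scoped MatrixGroups ModularForm

namespace Fermat.Agent.HeckeFinite

/-- An algebra of endomorphisms preserving a finitely generated separating `ℤ`-lattice of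
functionals is a finite `ℤ`-module. -/
theorem moduleFinite_adjoin_of_separating {V : Type*} [AddCommGroup V] [Module ℂ V]
    (L : Submodule ℤ (Module.Dual ℂ V)) (hL : L.FG)
    (hsep : ∀ x : V, (∀ v ∈ L, v x = 0) → x = 0) (S : Set (Module.End ℂ V))
    (hS : ∀ T ∈ S, ∀ v ∈ L, v ∘ₗ T ∈ L) :
    Module.Finite ℤ (Algebra.adjoin ℤ S) := by
  have hA : ∀ T ∈ Algebra.adjoin ℤ S, ∀ v ∈ L, v ∘ₗ T ∈ L := by
    intro T hT
    induction hT using Algebra.adjoin_induction with
    | mem x hx => exact hS x hx
    | algebraMap r =>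
      intro v hv
      have e : v ∘ₗ (algebraMap ℤ (Module.End ℂ V) r) = r • v := by
        ext x
        simp
      rw [e]
      exact L.smul_mem r hv
    | add x y _ _ hx hy =>
      intro v hv
      rw [LinearMap.comp_add]
      exact add_mem (hx v hv) (hy v hv)
    | mul x y _ _ hx hy =>
      intro v hv
      rw [Module.End.mul_eq_comp, ← LinearMap.comp_assoc]
      exact hy _ (hx v hv)
  have : IsAddTorsionFree (Module.Dual ℂ V) := IsAddTorsionFree.of_isTorsionFree ℂ _
  have : Module.Finite ℤ L := Module.Finite.iff_fg.mpr hL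
  have : Module.IsTorsionFree ℤ L := inferInstance
  have : Module.Free ℤ L := Module.free_of_finite_type_torsion_free'
  let Φ : Algebra.adjoin ℤ S →+ (L →ₗ[ℤ] L) :=
    { toFun := fun T =>
        AddMonoidHom.toIntLinearMap
          { toFun := fun v => ⟨(v : Module.Dual ℂ V) ∘ₗ (T : Module.End ℂ V), hA _ T.2 _ v.2⟩
            map_zero' := by ext; simp
            map_add' := fun v w => by ext; simp }
      map_zero' := by ext; simp
      map_add' := fun T T' => by ext; simp }
  refine Module.Finite.of_injective Φ.toIntLinearMap ?_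
  rw [injective_iff_map_eq_zero]
  intro T hT
  refine Subtype.ext (LinearMap.ext fun x => hsep _ fun v hv => ?_)
  have h := congrArg (fun F : L →ₗ[ℤ] L => ((F ⟨v, hv⟩ : L) : Module.Dual ℂ V) x) hT
  simpa [Φ] using h

/-- The Hecke algebra of cusp forms is a finite `ℤ`-module. -/
theorem moduleFinite_heckeAlgebra (N : ℕ) [NeZero N] (k : ℤ) (S : Set ℕ) :
    Module.Finite ℤ (CuspForm.heckeAlgebra N k S) := by
  rcases lt_or_ge k 2 with hk | hk
  · exact moduleFinite_adjoin_of_separating ⊥ Submodule.fg_bot
      (fun x _ => cuspForm_eq_zero_of_lt_two hk x) _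
      (fun T _ v hv => by simp [Submodule.mem_bot _ |>.mp hv])
  obtain ⟨n, rfl⟩ : ∃ n : ℕ, k = (n : ℤ) + 2 := ⟨(k - 2).toNat, by omega⟩
  refine moduleFinite_adjoin_of_separating (symbLattice N n) symbLattice_fg ?_ _ ?_
  · intro f hf
    refine eq_zero_of_period_eq_zero f fun g g' m hm => ?_
    exact hf _ (symb_mem_symbLattice g g' ⟨m, Nat.lt_succ_iff.mpr hm⟩)
  · rintro T (⟨p, hp, hpN, -, rfl⟩ | ⟨p, hpN, hp, -, rfl⟩) v hv
    · classical
      refine symbLattice_comp_mem (Finset.range (p + 1))
        (fun j => if j < p then ModularForm.heckeMatrix p j else ModularForm.heckeDiagMatrix p)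
        (fun j => ?_) _ (fun f => ?_) hv
      · split_ifs
        · refine ⟨ModularForm.det_heckeMatrix_pos p j,
            fun a b => ⟨(!![1, (j : ℤ); 0, (p : ℤ)]) a b, ?_⟩⟩
          rw [ModularForm.val_heckeMatrix hp.ne_zero]
          fin_cases a <;> fin_cases b <;> simp
        · refine ⟨ModularForm.det_heckeDiagMatrix_pos p,
            fun a b => ⟨(!![(p : ℤ), 0; 0, 1]) a b, ?_⟩⟩
          rw [ModularForm.val_heckeDiagMatrix hp.ne_zero]
          fin_cases a <;> fin_cases b <;> simp
      · rw [CuspForm.coe_heckeTLin_apply, ModularForm.heckeT_def, Finset.sum_range_succ]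
        simp only [lt_irrefl, if_false]
        congr 1
        exact Finset.sum_congr rfl fun j hj => by rw [if_pos (Finset.mem_range.mp hj)]
    · refine symbLattice_comp_mem (Finset.range p) (fun j => ModularForm.heckeMatrix p j)
        (fun j => ?_) _ (fun f => ?_) hv
      · refine ⟨ModularForm.det_heckeMatrix_pos p j,
          fun a b => ⟨(!![1, (j : ℤ); 0, (p : ℤ)]) a b, ?_⟩⟩
        rw [ModularForm.val_heckeMatrix hp.ne_zero]
        fin_cases a <;> fin_cases b <;> simp
      · rw [CuspForm.coe_heckeULin_apply, ModularForm.heckeU_def]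

end Fermat.Agent.HeckeFinite
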