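import Mathlib

/-!
# Integral matrices of positive determinant acting on `f(z) z^m`

For an integral matrix `M` with positive determinant, `(f ∣[n+2] M)(z) z^m` is an integral
combination of the pullbacks along `M` of the differentials `f(w) w^i dw`, `i ≤ n`.
-/

set_option autoImplicit false

noncomputable section

open UpperHalfPlane
open scoped MatrixGroups ModularForm

namespace Fermat.Agent.HeckeFinite

/-- `M : GL₂(ℝ)` has positive determinant and integer entries. -/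
def IsIntGL (M : GL (Fin 2) ℝ) : Prop :=
  0 < M.det.val ∧ ∀ i j, ∃ t : ℤ, (M : Matrix (Fin 2) (Fin 2) ℝ) i j = t

theorem isIntGL_specialLinearGroup (γ : SL(2, ℤ)) : IsIntGL (γ : GL (Fin 2) ℝ) :=
  ⟨by simp, fun i j => ⟨γ i j, by simp⟩⟩

theorem IsIntGL.mul {M M' : GL (Fin 2) ℝ} (h : IsIntGL M) (h' : IsIntGL M') :
    IsIntGL (M * M') := by
  refine ⟨by simpa using mul_pos h.1 h'.1, fun i j => ?_⟩
  choose A hA using h.2
  choose B hB using h'.2
  exact ⟨∑ l, A i l * B l j, by simp [Matrix.mul_apply, hA, hB]⟩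

/-- Every integral matrix of positive determinant is a modular matrix times an upper triangular
one. -/
theorem IsIntGL.exists_eq_mul {M : GL (Fin 2) ℝ} (h : IsIntGL M) :
    ∃ (g : SL(2, ℤ)) (u : GL (Fin 2) ℝ), u 1 0 = 0 ∧ M = (g : GL (Fin 2) ℝ) * u := by
  obtain ⟨x, hx⟩ := h.2 0 0
  obtain ⟨y, hy⟩ := h.2 1 0
  have hd : 0 < Int.gcd x y := by
    rcases Nat.eq_zero_or_pos (Int.gcd x y) with h0 | h0
    · obtain ⟨hx0, hy0⟩ := Int.gcd_eq_zero_iff.mp h0
      have hdet := h.1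
      rw [Matrix.GeneralLinearGroup.val_det_apply, Matrix.det_fin_two, hx, hy, hx0, hy0] at hdet
      simp at hdet
    · exact h0
  obtain ⟨x', y', hco, hx', hy'⟩ := Int.exists_gcd_one hd
  obtain ⟨p, q, hpq⟩ := Int.isCoprime_iff_gcd_eq_one.mpr hco
  let g : SL(2, ℤ) := ⟨!![x', -q; y', p], by rw [Matrix.det_fin_two_of]; linear_combination hpq⟩
  refine ⟨g, (g : GL (Fin 2) ℝ)⁻¹ * M, ?_, (mul_inv_cancel_left _ _).symm⟩
  have hi : ((g⁻¹ : SL(2, ℤ)) : Matrix (Fin 2) (Fin 2) ℤ) = !![p, q; -y', x'] := by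
    rw [Matrix.SpecialLinearGroup.coe_inv, show (g : Matrix (Fin 2) (Fin 2) ℤ) = !![x', -q; y', p]
      from rfl, Matrix.adjugate_fin_two_of, neg_neg]
  have hg0 : (((g⁻¹ : SL(2, ℤ)) : GL (Fin 2) ℝ) : Matrix (Fin 2) (Fin 2) ℝ) 1 0 = -(y' : ℝ) := by
    show (((g⁻¹ : SL(2, ℤ)) : Matrix (Fin 2) (Fin 2) ℤ) 1 0 : ℝ) = -(y' : ℝ)
    rw [hi]; simp
  have hg1 : (((g⁻¹ : SL(2, ℤ)) : GL (Fin 2) ℝ) : Matrix (Fin 2) (Fin 2) ℝ) 1 1 = (x' : ℝ) := by
    show (((g⁻¹ : SL(2, ℤ)) : Matrix (Fin 2) (Fin 2) ℤ) 1 1 : ℝ) = (x' : ℝ)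
    rw [hi]; simp
  rw [map_inv, map_inv] at hg0 hg1
  rw [Units.val_mul, Matrix.mul_apply, Fin.sum_univ_two, hx, hy, hg0, hg1]
  have h2 : x' * y - y' * x = 0 := by
    linear_combination x' * hy' - y' * hx'
  have h3 : (x' : ℝ) * y - y' * x = 0 := by exact_mod_cast h2
  linear_combination h3

/-- The key integrality: `(f ∣ M)(z) z^m` in terms of `f(Mz)(Mz)^i d(Mz)`. -/
theorem exists_slash_mul_pow_eq_sum {M : GL (Fin 2) ℝ} (h : IsIntGL M) {n m : ℕ} (hm : m ≤ n)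
    {k : ℤ} (hk : k = n + 2) :
    ∃ c : ℕ → ℤ, ∀ (f : ℍ → ℂ) (z : ℍ), (f ∣[k] M) z * (z : ℂ) ^ m =
      ∑ i ∈ Finset.range (n + 1), (c i : ℂ) *
        (f (M • z) * ((M • z : ℍ) : ℂ) ^ i * ((M.det.val : ℂ) / denom M z ^ 2)) := by
  obtain ⟨a, ha⟩ := h.2 0 0
  obtain ⟨b, hb⟩ := h.2 0 1
  obtain ⟨c, hc⟩ := h.2 1 0
  obtain ⟨e, he⟩ := h.2 1 1
  let P : Polynomial ℤ := (Polynomial.C a - Polynomial.C c * Polynomial.X) ^ (n - m) *
    (Polynomial.C e * Polynomial.X - Polynomial.C b) ^ m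
  have hP : P.natDegree ≤ n := by
    have h1 : (Polynomial.C a - Polynomial.C c * Polynomial.X).natDegree ≤ 1 := by compute_degree!
    have h2 : (Polynomial.C e * Polynomial.X - Polynomial.C b).natDegree ≤ 1 := by compute_degree!
    refine Polynomial.natDegree_mul_le.trans ?_
    calc _ ≤ (n - m) * 1 + m * 1 :=
          add_le_add (Polynomial.natDegree_pow_le_of_le _ h1) (Polynomial.natDegree_pow_le_of_le _ h2)
      _ = n := by omega
  refine ⟨P.coeff, fun f z => ?_⟩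
  set w : ℂ := ((M • z : ℍ) : ℂ) with hw
  have hsum : ∑ i ∈ Finset.range (n + 1), (P.coeff i : ℂ) * w ^ i =
      ((a : ℂ) - c * w) ^ (n - m) * ((e : ℂ) * w - b) ^ m := by
    have := Polynomial.aeval_eq_sum_range' (p := P) (Nat.lt_succ_of_le hP) w
    simp only [zsmul_eq_mul] at this
    rw [← this]
    simp [P]
  have hrhs : ∑ i ∈ Finset.range (n + 1), (P.coeff i : ℂ) *
      (f (M • z) * w ^ i * ((M.det.val : ℂ) / denom M z ^ 2)) =
      f (M • z) * ((M.det.val : ℂ) / denom M z ^ 2) *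
        ∑ i ∈ Finset.range (n + 1), (P.coeff i : ℂ) * w ^ i := by
    rw [Finset.mul_sum]
    exact Finset.sum_congr rfl fun i _ => by ring
  rw [hrhs, hsum]
  have hden : denom M z ≠ 0 := denom_ne_zero M z
  have hdeneq : denom M z = (c : ℂ) * z + e := by
    simp [UpperHalfPlane.denom, hc, he]
  have hweq : w * denom M z = (a : ℂ) * z + b := by
    rw [hw, coe_smul_of_det_pos h.1, div_mul_cancel₀ _ hden]
    simp [UpperHalfPlane.num, ha, hb]
  have hD : (M.det.val : ℂ) = (a : ℂ) * e - b * c := by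
    rw [Matrix.GeneralLinearGroup.val_det_apply, Matrix.det_fin_two, ha, hb, hc, he]
    push_cast
    ring
  have h3 : (a : ℂ) - c * w = (M.det.val : ℂ) / denom M z := by
    rw [eq_div_iff hden, sub_mul, mul_assoc, hweq, hdeneq, hD]
    ring
  have h4 : (e : ℂ) * w - b = (M.det.val : ℂ) * z / denom M z := by
    rw [eq_div_iff hden, sub_mul, mul_assoc, hweq, hdeneq, hD]
    ring
  have hσ : UpperHalfPlane.σ M = .refl ℝ ℂ := by
    rw [UpperHalfPlane.σ, if_pos h.1]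
  rw [ModularForm.slash_apply, hσ, h3, h4, abs_of_pos h.1, hk]
  simp only [ContinuousAlgEquiv.refl_apply]
  rw [show ((n : ℤ) + 2 - 1) = ((n + 1 : ℕ) : ℤ) by push_cast; ring,
    show -((n : ℤ) + 2) = -((n + 2 : ℕ) : ℤ) by push_cast; ring, zpow_natCast, zpow_neg,
    zpow_natCast]
  obtain ⟨r, rfl⟩ := Nat.exists_eq_add_of_le hm
  simp only [Nat.add_sub_cancel_left, div_pow, mul_pow]
  field_simp
  ring

end Fermat.Agent.HeckeFinite
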