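import Mathlib.Analysis.Calculus.Deriv.Polynomial
import Mathlib.Analysis.Complex.HasPrimitives
import Mathlib.MeasureTheory.Integral.CurveIntegral.Poincare
import Mathlib.MeasureTheory.Integral.ExpDecay
import Mathlib.MeasureTheory.Integral.IntegralEqImproper
import Mathlib.NumberTheory.ModularForms.Bounds
import Mathlib.NumberTheory.ModularForms.CongruenceSubgroups

/-!
# Primitives on the upper half plane normalised at a cusp

For `g ∈ SL(2, ℤ)` and `G : ℍ → ℂ`, `IsPrimitiveAt g G F` says that `F` is a primitive of `G`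
tending to `0` along every vertical line moved by `g`, i.e. at the cusp `g • ∞`.
These are the building blocks of the modular symbols used for the finiteness of Hecke algebras.
-/

set_option autoImplicit false

noncomputable section

open UpperHalfPlane Filter Topology Complex
open scoped MatrixGroups ModularForm

namespace Fermat.Agent.HeckeFinite

/-- The point `x + iy` (junk unless `y > 0`). -/
def vert (x y : ℝ) : ℍ := ofComplex (x + y * Complex.I)

lemma coe_vert {x y : ℝ} (hy : 0 < y) : (vert x y : ℂ) = x + y * Complex.I := by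
  rw [vert, ofComplex_apply_of_im_pos (by simpa using hy)]

lemma im_vert {x y : ℝ} (hy : 0 < y) : (vert x y).im = y := by
  rw [← coe_im, coe_vert hy]; simp

lemma re_vert {x y : ℝ} (hy : 0 < y) : (vert x y).re = x := by
  rw [← coe_re, coe_vert hy]; simp

lemma tendsto_vert_atImInfty (x : ℝ) : Tendsto (vert x) atTop atImInfty := by
  refine tendsto_comap_iff.mpr (tendsto_id.congr' ?_)
  filter_upwards [eventually_gt_atTop (0 : ℝ)] with y hy using (im_vert hy).symm

/-- `F` is a primitive of `G` vanishing at the cusp `g • ∞`. -/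
def IsPrimitiveAt (g : SL(2, ℤ)) (G F : ℍ → ℂ) : Prop :=
  (∀ τ : ℍ, HasDerivAt (F ∘ ofComplex) (G τ) (τ : ℂ)) ∧
    ∀ x : ℝ, Tendsto (fun y : ℝ ↦ F (g • vert x y)) atTop (𝓝 0)

/-- Two primitives of the same function on the upper half plane differ by a constant. -/
lemma sub_eq_sub_of_hasDerivAt {G F F' : ℍ → ℂ}
    (hF : ∀ τ : ℍ, HasDerivAt (F ∘ ofComplex) (G τ) (τ : ℂ))
    (hF' : ∀ τ : ℍ, HasDerivAt (F' ∘ ofComplex) (G τ) (τ : ℂ)) (τ τ' : ℍ) :
    F τ - F' τ = F τ' - F' τ' := by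
  have hd : ∀ τ : ℍ, HasDerivAt ((F ∘ ofComplex) - (F' ∘ ofComplex)) 0 (τ : ℂ) := fun σ ↦ by
    simpa using! (hF σ).sub (hF' σ)
  have hd' : ∀ z ∈ upperHalfPlaneSet, HasDerivAt ((F ∘ ofComplex) - (F' ∘ ofComplex)) 0 z :=
    fun z hz ↦ hd ⟨z, hz⟩
  have hconn : IsPreconnected upperHalfPlaneSet := (convex_halfSpace_im_gt 0).isPreconnected
  have key := isOpen_upperHalfPlaneSet.is_const_of_deriv_eq_zero hconn
    (fun z hz ↦ (hd' z hz).differentiableAt.differentiableWithinAt)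
    (fun z hz ↦ (hd' z hz).deriv) (x := (τ : ℂ)) τ.im_pos (y := (τ' : ℂ)) τ'.im_pos
  simpa using! key

namespace IsPrimitiveAt

variable {g : SL(2, ℤ)} {G G' F F' : ℍ → ℂ}

lemma unique (hF : IsPrimitiveAt g G F) (hF' : IsPrimitiveAt g G F') : F = F' := by
  funext τ
  have hc : ∀ y : ℝ, F (g • vert 0 y) - F' (g • vert 0 y) = F τ - F' τ := fun y ↦
    sub_eq_sub_of_hasDerivAt hF.1 hF'.1 _ τ
  have h := ((hF.2 0).sub (hF'.2 0)).congr hc
  rw [sub_zero, tendsto_const_nhds_iff] at h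
  exact sub_eq_zero.mp h

protected lemma add (hF : IsPrimitiveAt g G F) (hF' : IsPrimitiveAt g G' F') :
    IsPrimitiveAt g (G + G') (F + F') :=
  ⟨fun τ ↦ by simpa using! (hF.1 τ).add (hF'.1 τ),
    fun x ↦ by simpa using! (hF.2 x).add (hF'.2 x)⟩

protected lemma const_smul (c : ℂ) (hF : IsPrimitiveAt g G F) :
    IsPrimitiveAt g (c • G) (c • F) :=
  ⟨fun τ ↦ by simpa using! (hF.1 τ).const_mul c,
    fun x ↦ by simpa using! (hF.2 x).const_mul c⟩

protected lemma zero (g : SL(2, ℤ)) : IsPrimitiveAt g 0 0 :=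
  ⟨fun τ ↦ hasDerivAt_const (τ : ℂ) (0 : ℂ), fun _ ↦ tendsto_const_nhds⟩

end IsPrimitiveAt

/-- An upper triangular matrix of positive determinant maps vertical lines to vertical lines. -/
lemma exists_smul_vert (u : GL (Fin 2) ℝ) (hu : u 1 0 = 0) (hu' : 0 < u.det.val) (x : ℝ) :
    ∃ x' c : ℝ, 0 < c ∧ ∀ y : ℝ, 0 < y → u • vert x y = vert x' (c * y) := by
  have hdet : (u 0 0) * (u 1 1) = u.det.val := by
    simp [Matrix.det_fin_two, hu]
  have h11 : u 1 1 ≠ 0 := fun h ↦ hu'.ne' (by rw [← hdet, h, mul_zero])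
  have hc : 0 < u 0 0 / u 1 1 := by
    have : u 0 0 / u 1 1 = u.det.val / (u 1 1) ^ 2 := by rw [← hdet]; field_simp
    rw [this]; positivity
  refine ⟨(u 0 0 * x + u 0 1) / u 1 1, u 0 0 / u 1 1, hc, fun y hy ↦ UpperHalfPlane.ext ?_⟩
  have h11' : ((u 1 1 : ℝ) : ℂ) ≠ 0 := ofReal_ne_zero.mpr h11
  rw [coe_smul_of_det_pos hu', coe_vert hy, coe_vert (mul_pos hc hy)]
  simp only [num, denom, hu, ofReal_zero, zero_mul, zero_add, ofReal_div, ofReal_add, ofReal_mul]
  field_simp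
  ring

/-- Substitution: if `α * g = g' * u` with `u` upper triangular, then pulling back along `α` a
primitive at `g' • ∞` gives a primitive at `g • ∞`. -/
lemma IsPrimitiveAt.comp {g g' : SL(2, ℤ)} {G F : ℍ → ℂ} {α u : GL (Fin 2) ℝ}
    (hα : 0 < α.det.val) (hu : u 1 0 = 0) (hu' : 0 < u.det.val)
    (h : α * (g : GL (Fin 2) ℝ) = (g' : GL (Fin 2) ℝ) * u) (hF : IsPrimitiveAt g' G F) :
    IsPrimitiveAt g (fun τ ↦ G (α • τ) * (α.det.val / denom α τ ^ 2))
      (fun τ ↦ F (α • τ)) := by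
  refine ⟨fun τ ↦ ?_, fun x ↦ ?_⟩
  · have h1 : HasDerivAt (fun z ↦ ↑(α • ofComplex z) : ℂ → ℂ)
        (α.det.val / denom α τ ^ 2) (τ : ℂ) := by
      simpa using (hasStrictDerivAt_smul (g := α) (by simpa using hα) τ).hasDerivAt
    have h2 : HasDerivAt (F ∘ ofComplex) (G (α • τ))
        ((fun z ↦ ↑(α • ofComplex z) : ℂ → ℂ) (τ : ℂ)) := by
      simpa using hF.1 (α • τ)
    simpa [Function.comp_def] using! h2.comp (τ : ℂ) h1
  · obtain ⟨x', c, hc, hxc⟩ := exists_smul_vert u hu hu' x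
    refine ((hF.2 x').comp (tendsto_id.const_mul_atTop hc)).congr' ?_
    filter_upwards [eventually_gt_atTop (0 : ℝ)] with y hy
    have hg : ∀ (g : SL(2, ℤ)) (z : ℍ), g • z = (g : GL (Fin 2) ℝ) • z := fun g z ↦ rfl
    simp only [Function.comp_apply, id_eq]
    rw [← hxc y hy, hg g', ← mul_smul, ← h, mul_smul, ← hg g]

/-! ### Existence at infinity -/

/-- Exponential decay in vertical strips. -/
def HasStripDecay (G : ℍ → ℂ) : Prop :=
  ∀ R : ℝ, ∃ C c : ℝ, 0 < c ∧ ∀ᶠ y : ℝ in atTop, ∀ x : ℝ, |x| ≤ R →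
    ‖G (vert x y)‖ ≤ C * Real.exp (-c * y)

lemma exists_isPrimitiveAt_one {G : ℍ → ℂ}
    (hG : DifferentiableOn ℂ (G ∘ ofComplex) upperHalfPlaneSet) (hdec : HasStripDecay G) :
    ∃ F : ℍ → ℂ, IsPrimitiveAt 1 G F := by
  obtain ⟨P, hP⟩ := (convex_halfSpace_im_gt (0 : ℝ)).exists_forall_hasDerivWithinAt hG
  have hP' : ∀ z : ℂ, 0 < z.im → HasDerivAt P ((G ∘ ofComplex) z) z := fun z hz ↦
    (hP z hz).hasDerivAt (isOpen_upperHalfPlaneSet.mem_nhds hz)
  have hPcomp : ∀ τ : ℍ, HasDerivAt ((fun τ : ℍ ↦ P τ) ∘ ofComplex) (G τ) (τ : ℂ) := fun τ ↦ by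
    have hev : ((fun σ : ℍ ↦ P σ) ∘ ofComplex) =ᶠ[𝓝 (τ : ℂ)] P := by
      filter_upwards [isOpen_upperHalfPlaneSet.mem_nhds τ.im_pos] with z hz
      simp [ofComplex_apply_of_im_pos hz]
    simpa using ((hP' τ τ.im_pos).congr_of_eventuallyEq hev)
  -- the derivative along a vertical line
  have hvd : ∀ x y : ℝ, 0 < y →
      HasDerivAt (fun t : ℝ ↦ P (x + t * Complex.I)) (Complex.I * G (vert x y)) y := by
    intro x y hy
    have h1 : HasDerivAt (fun t : ℂ ↦ (x : ℂ) + t * Complex.I) Complex.I (y : ℂ) := by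
      simpa using ((hasDerivAt_id (y : ℂ)).mul_const Complex.I).const_add (x : ℂ)
    have h2 := ((hP' ((x : ℂ) + y * Complex.I) (by simpa using hy)).comp (y : ℂ) h1).comp_ofReal
    simpa [vert, mul_comm] using! h2
  -- existence of the limit
  have hlim : ∀ x : ℝ, ∃ L : ℂ, Tendsto (fun t : ℝ ↦ P (x + t * Complex.I)) atTop (𝓝 L) := by
    intro x
    obtain ⟨C, c, hc, hev⟩ := hdec |x|
    obtain ⟨a, ha⟩ := eventually_atTop.mp (hev.and (eventually_gt_atTop 0))
    have ha0 : 0 < a := (ha a le_rfl).2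
    refine ⟨_, MeasureTheory.tendsto_limUnder_of_hasDerivAt_of_integrableOn_Ioi (a := a)
      (fun t ht ↦ hvd x t (lt_trans ha0 ht)) ?_⟩
    have hcont : ContinuousOn (fun t : ℝ ↦ Complex.I * G (vert x t)) (Set.Ici a) := by
      refine continuousOn_const.mul ?_
      refine hG.continuousOn.comp (f := fun t : ℝ ↦ (x : ℂ) + t * Complex.I)
        (by fun_prop) fun t ht ↦ ?_
      simpa using lt_of_lt_of_le ha0 ht
    refine (MeasureTheory.integrable_norm_iff ?_).mp ?_
    · exact (hcont.mono Set.Ioi_subset_Ici_self).aestronglyMeasurable measurableSet_Ioi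
    refine integrable_of_isBigO_exp_neg hc hcont.norm (Asymptotics.IsBigO.of_bound C ?_)
    filter_upwards [eventually_ge_atTop a] with t ht
    simpa [abs_of_pos (Real.exp_pos _)] using (ha t ht).1 x le_rfl
  choose L hL using hlim
  -- the limit does not depend on the line
  have hLeq : ∀ x, L x = L 0 := by
    intro x
    obtain ⟨C, c, hc, hev⟩ := hdec |x|
    have h0 : Tendsto (fun y : ℝ ↦ C * Real.exp (-c * y) * |x|) atTop (𝓝 0) := by
      have : Tendsto (fun y : ℝ ↦ Real.exp (-c * y)) atTop (𝓝 0) :=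
        Real.tendsto_exp_atBot.comp (tendsto_id.const_mul_atTop_of_neg (by linarith))
      simpa using (this.const_mul C).mul_const |x|
    have hdiff : Tendsto (fun y : ℝ ↦ P (x + y * Complex.I) - P ((0 : ℝ) + y * Complex.I))
        atTop (𝓝 0) := by
      refine squeeze_zero_norm' ?_ h0
      filter_upwards [hev, eventually_gt_atTop 0] with y hy hy0
      have hd : ∀ t ∈ Set.uIcc (0 : ℝ) x, HasDerivWithinAt (fun t : ℝ ↦ P (t + y * Complex.I))
          (G (vert t y)) (Set.uIcc (0 : ℝ) x) t := by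
        intro t _
        have h1 : HasDerivAt (fun s : ℂ ↦ s + y * Complex.I) 1 (t : ℂ) :=
          (hasDerivAt_id _).add_const _
        have h2 := ((hP' ((t : ℂ) + y * Complex.I) (by simpa using hy0)).comp (t : ℂ) h1).comp_ofReal
        exact (by simpa [vert] using! h2 :
          HasDerivAt (fun t : ℝ ↦ P (t + y * Complex.I)) (G (vert t y)) t).hasDerivWithinAt
      have hb : ∀ t ∈ Set.uIcc (0 : ℝ) x, ‖G (vert t y)‖ ≤ C * Real.exp (-c * y) := fun t ht ↦
        hy t (by simpa using Set.abs_sub_left_of_mem_uIcc ht)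
      simpa using (convex_uIcc 0 x).norm_image_sub_le_of_norm_hasDerivWithin_le hd hb
        Set.left_mem_uIcc Set.right_mem_uIcc
    exact sub_eq_zero.mp (tendsto_nhds_unique ((hL x).sub (hL 0)) hdiff)
  refine ⟨fun τ ↦ P τ - L 0, fun τ ↦ ?_, fun x ↦ ?_⟩
  · simpa [Function.comp_def] using! (hPcomp τ).sub_const (L 0)
  · rw [← sub_self (L 0)]
    refine Tendsto.sub_const ?_ (L 0)
    rw [← hLeq x]
    refine (hL x).congr' ?_
    filter_upwards [eventually_gt_atTop (0 : ℝ)] with y hy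
    simp [coe_vert hy]

namespace HasStripDecay

variable {G G' : ℍ → ℂ}

protected lemma const_smul (a : ℂ) (h : HasStripDecay G) : HasStripDecay (a • G) := by
  intro R
  obtain ⟨C, c, hc, hev⟩ := h R
  refine ⟨‖a‖ * C, c, hc, ?_⟩
  filter_upwards [hev] with y hy x hx
  rw [Pi.smul_apply, norm_smul, mul_assoc]
  exact mul_le_mul_of_nonneg_left (hy x hx) (norm_nonneg _)

protected lemma zero : HasStripDecay 0 := fun _ ↦
  ⟨0, 1, one_pos, Eventually.of_forall fun _ _ _ ↦ by simp⟩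

protected lemma add (h : HasStripDecay G) (h' : HasStripDecay G') : HasStripDecay (G + G') := by
  intro R
  obtain ⟨C, c, hc, hev⟩ := h R
  obtain ⟨C', c', hc', hev'⟩ := h' R
  refine ⟨|C| + |C'|, min c c', lt_min hc hc', ?_⟩
  filter_upwards [hev, hev', eventually_ge_atTop 0] with y hy hy' hy0 x hx
  have e : ∀ {a b : ℝ}, min c c' ≤ b → a * Real.exp (-b * y) ≤ |a| * Real.exp (-min c c' * y) :=
    fun {a b} hb ↦ mul_le_mul (le_abs_self a)
      (Real.exp_le_exp.mpr (mul_le_mul_of_nonneg_right (neg_le_neg hb) hy0))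
      (Real.exp_pos _).le (abs_nonneg _)
  rw [Pi.add_apply, add_mul]
  exact (norm_add_le _ _).trans (add_le_add ((hy x hx).trans (e (min_le_left _ _)))
    ((hy' x hx).trans (e (min_le_right _ _))))

protected lemma sum {ι : Type*} (s : Finset ι) {G : ι → ℍ → ℂ}
    (h : ∀ i ∈ s, HasStripDecay (G i)) : HasStripDecay (∑ i ∈ s, G i) :=
  Finset.sum_induction _ HasStripDecay (fun _ _ ↦ HasStripDecay.add) HasStripDecay.zero h

/-- A primitive at `∞` of a function with exponential decay in strips decays as well. -/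
protected lemma primitive {G F : ℍ → ℂ} (h : HasStripDecay G) (hF : IsPrimitiveAt 1 G F) :
    HasStripDecay F := by
  intro R
  obtain ⟨C, c, hc, hev⟩ := h R
  obtain ⟨a, ha⟩ := eventually_atTop.mp (hev.and (eventually_gt_atTop 0))
  refine ⟨|C| / c, c, hc, ?_⟩
  filter_upwards [eventually_ge_atTop a] with y hy x hx
  have hlim : Tendsto (fun Y : ℝ ↦ ‖F (vert x y) - F (vert x Y)‖) atTop (𝓝 ‖F (vert x y)‖) := by
    have h1 : Tendsto (fun Y : ℝ ↦ F (vert x Y)) atTop (𝓝 0) := by simpa using hF.2 x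
    simpa using ((tendsto_const_nhds (x := F (vert x y))).sub h1).norm
  refine le_of_tendsto hlim ?_
  filter_upwards [eventually_ge_atTop y] with Y hY
  have hd : ∀ t ∈ Set.Icc y Y, HasDerivAt (fun s : ℝ ↦ F (vert x s) - F (vert x y))
      (Complex.I * G (vert x t)) t := by
    intro t ht
    have ht0 : 0 < t := (ha t (hy.trans ht.1)).2
    have h1 : HasDerivAt (fun s : ℂ ↦ (x : ℂ) + s * Complex.I) Complex.I (t : ℂ) := by
      simpa using ((hasDerivAt_id (t : ℂ)).mul_const Complex.I).const_add (x : ℂ)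
    have h0 := hF.1 (vert x t)
    rw [coe_vert ht0] at h0
    have h2 := (h0.comp (t : ℂ) h1).comp_ofReal
    simpa [Function.comp_def, vert, mul_comm] using! h2.sub_const (F (vert x y))
  have hbound := image_norm_le_of_norm_deriv_right_le_deriv_boundary
    (B := fun t ↦ |C| / c * (Real.exp (-c * y) - Real.exp (-c * t)))
    (B' := fun t ↦ |C| * Real.exp (-c * t)) (f := fun s : ℝ ↦ F (vert x s) - F (vert x y))
    (fun t ht ↦ (hd t ht).continuousAt.continuousWithinAt)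
    (fun t ht ↦ (hd t ⟨ht.1, ht.2.le⟩).hasDerivWithinAt) (by simp) ?_ ?_ ⟨hY, le_rfl⟩
  · rw [norm_sub_rev]
    refine hbound.trans ?_
    exact mul_le_mul_of_nonneg_left (sub_le_self _ (Real.exp_pos _).le) (by positivity)
  · intro t
    convert! (((hasDerivAt_id t).const_mul (-c)).exp.const_sub (Real.exp (-c * y))).const_mul
      (|C| / c) using 1
    simp
    field_simp
  · intro t ht
    rw [norm_mul, norm_I, one_mul]
    exact ((ha t (hy.trans ht.1)).1 x hx).trans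
      (mul_le_mul_of_nonneg_right (le_abs_self C) (Real.exp_pos _).le)

end HasStripDecay

/-! ### The integrands `f(τ) P(τ)` -/

/-- The function `τ ↦ f τ * P τ` for an integral polynomial `P`. -/
def mulPoly (f : ℍ → ℂ) (P : Polynomial ℤ) : ℍ → ℂ := fun τ ↦ f τ * Polynomial.aeval (τ : ℂ) P

lemma mulPoly_apply (f : ℍ → ℂ) (P : Polynomial ℤ) (τ : ℍ) :
    mulPoly f P τ = f τ * Polynomial.aeval (τ : ℂ) P := rfl

/-- The weight `-n` action of `g ∈ SL(2, ℤ)` on polynomials of degree `≤ n`: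
`P ↦ (cX + d)ⁿ P((aX + b)/(cX + d))`. -/
def polySlash (n : ℕ) (g : SL(2, ℤ)) (P : Polynomial ℤ) : Polynomial ℤ :=
  ∑ m ∈ Finset.range (n + 1), Polynomial.C (P.coeff m) *
    (Polynomial.C (g 0 0) * Polynomial.X + Polynomial.C (g 0 1)) ^ m *
    (Polynomial.C (g 1 0) * Polynomial.X + Polynomial.C (g 1 1)) ^ (n - m)

lemma natDegree_polySlash_le (n : ℕ) (g : SL(2, ℤ)) (P : Polynomial ℤ) :
    (polySlash n g P).natDegree ≤ n := by
  refine Polynomial.natDegree_sum_le_of_forall_le _ _ fun m hm ↦ ?_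
  have hm' : m ≤ n := by simpa [Nat.lt_succ_iff] using hm
  calc _ ≤ (0 + m * 1) + (n - m) * 1 := by
        refine Polynomial.natDegree_mul_le_of_le (Polynomial.natDegree_mul_le_of_le ?_ ?_) ?_
        · simp
        · exact Polynomial.natDegree_pow_le_of_le m (Polynomial.natDegree_linear_le)
        · exact Polynomial.natDegree_pow_le_of_le _ (Polynomial.natDegree_linear_le)
    _ = n := by omega

lemma aeval_polySlash {n : ℕ} (g : SL(2, ℤ)) {P : Polynomial ℤ} (hP : P.natDegree ≤ n) (τ : ℍ) :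
    Polynomial.aeval (τ : ℂ) (polySlash n g P) =
      denom g τ ^ n * Polynomial.aeval ((g • τ : ℍ) : ℂ) P := by
  rw [Polynomial.aeval_eq_sum_range' (Nat.lt_succ_of_le hP) ((g • τ : ℍ) : ℂ), polySlash, map_sum,
    Finset.mul_sum]
  refine Finset.sum_congr rfl fun m hm ↦ ?_
  have hm' : m ≤ n := by simpa [Nat.lt_succ_iff] using hm
  have hd : denom (g : GL (Fin 2) ℝ) (τ : ℂ) ≠ 0 := denom_ne_zero _ τ
  have hg : ((g • τ : ℍ) : ℂ) = num (g : GL (Fin 2) ℝ) τ / denom (g : GL (Fin 2) ℝ) τ :=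
    coe_smul_of_det_pos (by simp) τ
  have e1 : num (g : GL (Fin 2) ℝ) τ = (g 0 0 : ℂ) * τ + (g 0 1 : ℂ) := by simp [num]
  have e2 : denom (g : GL (Fin 2) ℝ) τ = (g 1 0 : ℂ) * τ + (g 1 1 : ℂ) := by simp [denom]
  rw [hg, div_pow, ← Nat.sub_add_cancel hm', pow_add, Nat.add_sub_cancel]
  simp only [map_mul, map_pow, map_add, Polynomial.aeval_X, zsmul_eq_mul, eq_intCast, map_intCast,
    ← e1, ← e2]
  field_simp

section CuspForm

variable {Γ : Subgroup (GL (Fin 2) ℝ)} [Γ.IsArithmetic] {k : ℤ}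

lemma hasStripDecay_slash (f : CuspForm Γ k) (g : SL(2, ℤ)) :
    HasStripDecay (⇑f ∣[k] g) := by
  open ConjAct Pointwise in
  have : ((toConjAct (g : GL (Fin 2) ℝ)⁻¹) • Γ).IsArithmetic := by
    simpa [(show Rat.castHom ℝ = algebraMap ℚ ℝ by rfl), map_inv, Matrix.SpecialLinearGroup.map_mapGL]
      using! Subgroup.IsArithmetic.conj Γ (Matrix.SpecialLinearGroup.mapGL ℚ g)⁻¹
  obtain ⟨c, hc, hdec⟩ := CuspFormClass.exp_decay_atImInfty' (CuspForm.translate f g)
  rw [CuspForm.coe_translate, Asymptotics.isBigO_iff] at hdec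
  obtain ⟨C, hC⟩ := hdec
  rw [UpperHalfPlane.atImInfty, Filter.eventually_comap] at hC
  intro R
  refine ⟨C, c, hc, ?_⟩
  filter_upwards [hC, eventually_gt_atTop 0] with y hy hy0 x _
  have hf := hy (vert x y) (im_vert hy0)
  rwa [im_vert hy0, Real.norm_eq_abs, abs_of_pos (Real.exp_pos _)] at hf

lemma HasStripDecay.mulPoly {G : ℍ → ℂ} (h : HasStripDecay G) (P : Polynomial ℤ) :
    HasStripDecay (mulPoly G P) := by
  intro R
  obtain ⟨C, c, hc, hC⟩ := h R
  set d := P.natDegree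
  set A := ∑ m ∈ Finset.range (d + 1), ‖((P.coeff m : ℤ) : ℂ)‖ with hA
  have hexp : ∀ᶠ y : ℝ in atTop, (2 * y) ^ d ≤ Real.exp (c / 2 * y) := by
    have h1 := (isLittleO_pow_exp_pos_mul_atTop d (by positivity : (0:ℝ) < c / 2)).const_mul_left
      (2 ^ d)
    filter_upwards [h1.bound zero_lt_one] with y hy
    have := (le_abs_self _).trans hy
    simpa [mul_pow, abs_of_pos (Real.exp_pos _)] using this
  refine ⟨|C| * A, c / 2, by positivity, ?_⟩
  filter_upwards [hC, hexp, eventually_ge_atTop (max 1 |R|)] with y hy hy' hyR x hx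
  have hy1 : 1 ≤ y := le_trans (le_max_left _ _) hyR
  have hy0 : 0 < y := lt_of_lt_of_le one_pos hy1
  have hxy : ‖((vert x y : ℍ) : ℂ)‖ ≤ 2 * y := by
    rw [coe_vert hy0]
    refine (norm_add_le _ _).trans ?_
    simp only [norm_real, norm_mul, norm_I, mul_one, Real.norm_eq_abs, abs_of_pos hy0]
    have : |x| ≤ y := hx.trans ((le_abs_self R).trans (le_trans (le_max_right _ _) hyR))
    linarith
  have hPb : ‖Polynomial.aeval ((vert x y : ℍ) : ℂ) P‖ ≤ A * (2 * y) ^ d := by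
    rw [Polynomial.aeval_eq_sum_range, hA, Finset.sum_mul]
    refine (norm_sum_le _ _).trans (Finset.sum_le_sum fun m hm ↦ ?_)
    rw [zsmul_eq_mul, norm_mul, norm_pow]
    refine mul_le_mul_of_nonneg_left ?_ (norm_nonneg _)
    exact (pow_le_pow_left₀ (norm_nonneg _) hxy m).trans
      (pow_le_pow_right₀ (by linarith) (by simpa [Nat.lt_succ_iff] using hm))
  calc ‖Fermat.Agent.HeckeFinite.mulPoly G P (vert x y)‖
      = ‖G (vert x y)‖ * ‖Polynomial.aeval ((vert x y : ℍ) : ℂ) P‖ := norm_mul _ _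
    _ ≤ (|C| * Real.exp (-c * y)) * (A * Real.exp (c / 2 * y)) := by
        refine mul_le_mul ((hy x hx).trans ?_) (hPb.trans ?_) (norm_nonneg _) (by positivity)
        · exact mul_le_mul_of_nonneg_right (le_abs_self C) (Real.exp_pos _).le
        · exact mul_le_mul_of_nonneg_left hy' (Finset.sum_nonneg fun _ _ ↦ norm_nonneg _)
    _ = |C| * A * Real.exp (-(c / 2) * y) := by
        rw [mul_mul_mul_comm, ← Real.exp_add]; ring_nf

lemma differentiableOn_mulPoly {h : ℍ → ℂ}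
    (hh : DifferentiableOn ℂ (h ∘ ofComplex) upperHalfPlaneSet) (P : Polynomial ℤ) :
    DifferentiableOn ℂ (mulPoly h P ∘ ofComplex) upperHalfPlaneSet := by
  refine (hh.mul (P.map (algebraMap ℤ ℂ)).differentiable.differentiableOn).congr fun z hz ↦ ?_
  simp [mulPoly, ofComplex_apply_of_im_pos hz, Polynomial.aeval_def, Polynomial.eval_map]

/-- Primitives of `f(τ) P(τ)` exist at every cusp when `f` is a cusp form of weight `n + 2` and
`P` has degree at most `n`. -/
lemma exists_isPrimitiveAt {n : ℕ} (f : CuspForm Γ ((n : ℤ) + 2)) {P : Polynomial ℤ}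
    (hP : P.natDegree ≤ n) (g : SL(2, ℤ)) : ∃ F, IsPrimitiveAt g (mulPoly f P) F := by
  have hdiff : DifferentiableOn ℂ ((⇑f ∣[(n : ℤ) + 2] g) ∘ ofComplex) upperHalfPlaneSet :=
    UpperHalfPlane.mdifferentiable_iff.mp (f.holo'.slash _ _)
  obtain ⟨E, hE⟩ := exists_isPrimitiveAt_one (differentiableOn_mulPoly hdiff (polySlash n g P))
    ((hasStripDecay_slash f g).mulPoly _)
  refine ⟨fun τ ↦ E ((g⁻¹ : SL(2, ℤ)) • τ), ?_⟩
  have key := IsPrimitiveAt.comp (g := g) (g' := 1) (α := ((g⁻¹ : SL(2, ℤ)) : GL (Fin 2) ℝ))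
    (u := 1) (by simp) (by simp) (by simp) (by simp) hE
  convert key using 1
  swap
  · rfl
  · funext τ
    have hd : denom ((g⁻¹ : SL(2, ℤ)) : GL (Fin 2) ℝ) (τ : ℂ) ≠ 0 := denom_ne_zero _ τ
    have hcc : denom (g : GL (Fin 2) ℝ) ((g⁻¹ • τ : ℍ) : ℂ) *
        denom ((g⁻¹ : SL(2, ℤ)) : GL (Fin 2) ℝ) (τ : ℂ) = 1 := by
      have h := denom_cocycle (g : GL (Fin 2) ℝ) ((g⁻¹ : SL(2, ℤ)) : GL (Fin 2) ℝ)
        (ne_of_gt τ.im_pos : (τ : ℂ).im ≠ 0)
      have hmob : ((g⁻¹ • τ : ℍ) : ℂ) = num ((g⁻¹ : SL(2, ℤ)) : GL (Fin 2) ℝ) τ /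
          denom ((g⁻¹ : SL(2, ℤ)) : GL (Fin 2) ℝ) τ := coe_smul_of_det_pos (by simp) τ
      simp only [← map_mul, mul_inv_cancel, map_one] at h
      rw [hmob, ← h]
      simp [denom]
    change mulPoly f P τ = mulPoly (⇑f ∣[(n : ℤ) + 2] g) (polySlash n g P) (g⁻¹ • τ) *
      ((((g⁻¹ : SL(2, ℤ)) : GL (Fin 2) ℝ).det.val : ℂ) /
        denom ((g⁻¹ : SL(2, ℤ)) : GL (Fin 2) ℝ) (τ : ℂ) ^ 2)
    rw [mulPoly, mulPoly, aeval_polySlash g hP, smul_inv_smul, ModularForm.SL_slash_apply,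
      smul_inv_smul, eq_inv_of_mul_eq_one_left hcc]
    simp only [inv_zpow', neg_neg, zpow_add₀ hd, zpow_natCast, inv_pow]
    field_simp
    simp

end CuspForm

end Fermat.Agent.HeckeFinite
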