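import Fermat.Agent.HeckeFinite.IntMat
import Fermat.Agent.HeckeFinite.Periods
import Fermat.Prelude.Def_CuspForm_HeckeAlgebra

/-!
# The lattice of modular symbols and stability under Hecke operators
-/

set_option autoImplicit false

noncomputable section

open UpperHalfPlane CongruenceSubgroup
open scoped MatrixGroups ModularForm

namespace Fermat.Agent.HeckeFinite

variable (N : ℕ) [NeZero N] (n : ℕ)

/-- The modular symbol `{g'∞, g∞} ⊗ z^m` as a functional on cusp forms of weight `n + 2`. -/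
def symb (g g' : SL(2, ℤ)) (m : Fin (n + 1)) :
    Module.Dual ℂ (CuspForm (Gamma0 N) ((n : ℤ) + 2)) :=
  periodLin g g' (Polynomial.X ^ (m : ℕ)) (by simp; omega)

/-- The `ℤ`-lattice spanned by all symbols. -/
def symbLattice : Submodule ℤ (Module.Dual ℂ (CuspForm (Gamma0 N) ((n : ℤ) + 2))) :=
  Submodule.span ℤ {v | ∃ g g' m, v = symb N n g g' m}

variable {N n}

theorem symb_apply (g g' : SL(2, ℤ)) (m : Fin (n + 1)) (f : CuspForm (Gamma0 N) ((n : ℤ) + 2)) :
    symb N n g g' m f = period f g g' (Polynomial.X ^ (m : ℕ)) := rfl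

theorem symb_mem_symbLattice (g g' : SL(2, ℤ)) (m : Fin (n + 1)) :
    symb N n g g' m ∈ symbLattice N n :=
  Submodule.subset_span ⟨g, g', m, rfl⟩

@[simp] theorem symb_self (g : SL(2, ℤ)) (m : Fin (n + 1)) : symb N n g g m = 0 := by
  ext f
  simp [symb_apply]

theorem symb_eq_add (g g' g'' : SL(2, ℤ)) (m : Fin (n + 1)) :
    symb N n g g'' m = symb N n g g' m + symb N n g' g'' m := by
  ext f
  simp [symb_apply, period_add_period]

theorem symb_neg (g g' : SL(2, ℤ)) (m : Fin (n + 1)) :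
    symb N n g' g m = -symb N n g g' m := by
  rw [eq_neg_iff_add_eq_zero, ← symb_eq_add, symb_self]

/-- `g` and `g T` define the same cusp. -/
theorem symb_mul_T (g : SL(2, ℤ)) (m : Fin (n + 1)) :
    symb N n (g * ModularGroup.T) g m = 0 := by
  ext f
  exact period_eq_zero_of_upper f g (by simp [ModularGroup.coe_T]) (by simp; omega)

/-- Composite of a symbol with an operator given by integral matrices: an integral combination
of symbols. -/
theorem exists_symb_comp_eq_sum {ι : Type*} (s : Finset ι) (M : ι → GL (Fin 2) ℝ)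
    (hM : ∀ j, IsIntGL (M j)) (T : Module.End ℂ (CuspForm (Gamma0 N) ((n : ℤ) + 2)))
    (hT : ∀ f, ⇑(T f) = ∑ j ∈ s, (⇑f ∣[(n : ℤ) + 2] M j))
    (gM gM' : ι → SL(2, ℤ)) {g g' : SL(2, ℤ)}
    (hg : ∀ j, ∃ u : GL (Fin 2) ℝ, u 1 0 = 0 ∧
      M j * (g : GL (Fin 2) ℝ) = (gM j : GL (Fin 2) ℝ) * u)
    (hg' : ∀ j, ∃ u : GL (Fin 2) ℝ, u 1 0 = 0 ∧
      M j * (g' : GL (Fin 2) ℝ) = (gM' j : GL (Fin 2) ℝ) * u)
    (m : Fin (n + 1)) :
    ∃ c : ι → Fin (n + 1) → ℤ, (symb N n g g' m) ∘ₗ T =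
      ∑ j ∈ s, ∑ i, c j i • symb N n (gM j) (gM' j) i := by
  choose c hc using fun j => exists_slash_mul_pow_eq_sum (hM j) (Nat.lt_succ_iff.mp m.2) rfl
  refine ⟨fun j i => c j i, LinearMap.ext fun f => ?_⟩
  have hprim : ∀ (h : SL(2, ℤ)) (hh : ι → SL(2, ℤ)),
      (∀ j, ∃ u : GL (Fin 2) ℝ, u 1 0 = 0 ∧
        M j * (h : GL (Fin 2) ℝ) = (hh j : GL (Fin 2) ℝ) * u) →
      prim h (mulPoly (⇑(T f)) (Polynomial.X ^ (m : ℕ))) = ∑ j ∈ s, ∑ i : Fin (n + 1),
        (c j i : ℂ) • fun z => prim (hh j) (mulPoly (⇑f) (Polynomial.X ^ (i : ℕ))) (M j • z) := by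
    intro h hh hu
    refine IsPrimitiveAt.prim_eq ?_
    have e : mulPoly (⇑(T f)) (Polynomial.X ^ (m : ℕ)) =
        ∑ j ∈ s, ∑ i : Fin (n + 1), (c j i : ℂ) •
          fun z => mulPoly (⇑f) (Polynomial.X ^ (i : ℕ)) (M j • z) *
            (((M j).det.val : ℂ) / denom (M j) z ^ 2) := by
      ext z
      simp only [mulPoly, map_pow, Polynomial.aeval_X, hT, Finset.sum_apply, Pi.smul_apply,
        smul_eq_mul, Finset.sum_mul]
      refine Finset.sum_congr rfl fun j _ => ?_
      rw [hc j (⇑f) z, Finset.sum_range]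
    rw [e]
    refine IsPrimitiveAt.sum _ fun j _ => IsPrimitiveAt.sum _ fun i _ =>
      IsPrimitiveAt.const_smul _ ?_
    obtain ⟨u, hu0, hu1⟩ := hu j
    refine IsPrimitiveAt.comp (hM j).1 hu0 ?_ hu1
      (isPrimitiveAt_prim f (by simp; omega) (hh j))
    have := congrArg (fun A : GL (Fin 2) ℝ => A.det.val) hu1
    simp at this
    simpa [← this] using (hM j).1
  rw [LinearMap.comp_apply, symb_apply, period, hprim g gM hg, hprim g' gM' hg']
  simp only [LinearMap.sum_apply, LinearMap.smul_apply, Finset.sum_apply, Pi.smul_apply,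
    smul_eq_mul, zsmul_eq_mul, ← Finset.sum_sub_distrib, ← mul_sub, symb_apply]
  exact Finset.sum_congr rfl fun j _ => Finset.sum_congr rfl fun i _ => by
    rw [period_eq (isPrimitiveAt_prim f (by simp; omega) _)
      (isPrimitiveAt_prim f (by simp; omega) _)]

omit [NeZero N] in
theorem cuspForm_slash_eq {k : ℤ} (f : CuspForm (Gamma0 N) k) {γ : SL(2, ℤ)}
    (hγ : γ ∈ Gamma0 N) : ⇑f ∣[k] (γ : GL (Fin 2) ℝ) = ⇑f :=
  SlashInvariantFormClass.slash_action_eq f _ (Subgroup.mem_map_of_mem _ hγ)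

/-- Translating a symbol by `γ ∈ Γ₀(N)`. -/
theorem exists_symb_eq_sum {γ : SL(2, ℤ)} (hγ : γ ∈ Gamma0 N)
    (g g' : SL(2, ℤ)) (m : Fin (n + 1)) :
    ∃ c : Fin (n + 1) → ℤ, symb N n g g' m = ∑ i, c i • symb N n (γ * g) (γ * g') i := by
  obtain ⟨c, hc⟩ := exists_symb_comp_eq_sum ({()} : Finset Unit)
    (fun _ => (γ : GL (Fin 2) ℝ)) (fun _ => isIntGL_specialLinearGroup γ) LinearMap.id
    (fun f => by simpa using (cuspForm_slash_eq f hγ).symm)
    (fun _ => γ * g) (fun _ => γ * g') (g := g) (g' := g')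
    (fun _ => ⟨1, by simp, by simp [map_mul]⟩) (fun _ => ⟨1, by simp, by simp [map_mul]⟩) m
  exact ⟨c (), by simpa using hc⟩

theorem symbLattice_fg : (symbLattice N n).FG := by
  classical
  let rep : SL(2, ℤ) ⧸ Gamma0 N → SL(2, ℤ) := fun q => (Quotient.out q)⁻¹
  have : Finite (SL(2, ℤ) ⧸ Gamma0 N) := Subgroup.finite_quotient_of_finiteIndex
  let G : Set (Module.Dual ℂ (CuspForm (Gamma0 N) ((n : ℤ) + 2))) :=
    Set.range fun p : (SL(2, ℤ) ⧸ Gamma0 N) × Fin (n + 1) =>
      symb N n (rep p.1 * ModularGroup.S) (rep p.1) p.2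
  suffices symbLattice N n = Submodule.span ℤ G by
    rw [this]
    exact Submodule.fg_span (Set.finite_range _)
  refine le_antisymm ?_ (Submodule.span_mono ?_)
  swap
  · rintro _ ⟨p, rfl⟩
    exact ⟨_, _, p.2, rfl⟩
  have hS : ∀ (g : SL(2, ℤ)) (m : Fin (n + 1)),
      symb N n (g * ModularGroup.S) g m ∈ Submodule.span ℤ G := by
    intro g m
    obtain ⟨γ, hγ⟩ := QuotientGroup.mk_out_eq_mul (Gamma0 N) g⁻¹
    have hrep : rep (QuotientGroup.mk g⁻¹) = (γ : SL(2, ℤ))⁻¹ * g := by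
      simp only [rep]
      rw [hγ]
      simp
    obtain ⟨c, hc⟩ := exists_symb_eq_sum (n := n) ((Gamma0 N).inv_mem γ.2)
      (g * ModularGroup.S) g m
    rw [hc]
    refine Submodule.sum_mem _ fun i _ => Submodule.smul_mem _ _ (Submodule.subset_span ?_)
    exact ⟨(QuotientGroup.mk g⁻¹, i), by simp [hrep, mul_assoc]⟩
  have key : ∀ h : SL(2, ℤ), ∀ (g : SL(2, ℤ)) (m : Fin (n + 1)),
      symb N n (g * h) g m ∈ Submodule.span ℤ G := by
    intro h
    have hh : h ∈ Subgroup.closure ({ModularGroup.S, ModularGroup.T} : Set SL(2, ℤ)) := by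
      rw [SpecialLinearGroup.SL2Z_generators]
      trivial
    induction hh using Subgroup.closure_induction with
    | mem x hx =>
      intro g m
      rcases hx with rfl | rfl
      · exact hS g m
      · rw [symb_mul_T]
        exact zero_mem _
    | one =>
      intro g m
      simp
    | mul x y _ _ hx hy =>
      intro g m
      rw [← mul_assoc, symb_eq_add (g * x * y) (g * x) g]
      exact add_mem (hy _ m) (hx _ m)
    | inv x _ hx =>
      intro g m
      rw [symb_neg, Submodule.neg_mem_iff]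
      simpa using hx (g * x⁻¹) m
  refine Submodule.span_le.mpr ?_
  rintro _ ⟨g, g', m, rfl⟩
  simpa using key (g'⁻¹ * g) g' m

/-- Hecke stability of the lattice, for any operator given by integral matrices. -/
theorem symbLattice_comp_mem {ι : Type*} (s : Finset ι) (M : ι → GL (Fin 2) ℝ)
    (hM : ∀ j, IsIntGL (M j)) (T : Module.End ℂ (CuspForm (Gamma0 N) ((n : ℤ) + 2)))
    (hT : ∀ f, ⇑(T f) = ∑ j ∈ s, (⇑f ∣[(n : ℤ) + 2] M j))
    {v : Module.Dual ℂ (CuspForm (Gamma0 N) ((n : ℤ) + 2))} (hv : v ∈ symbLattice N n) :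
    v ∘ₗ T ∈ symbLattice N n := by
  induction hv using Submodule.span_induction with
  | mem x hx =>
    obtain ⟨g, g', m, rfl⟩ := hx
    choose gM u hu hu' using fun j =>
      ((hM j).mul (isIntGL_specialLinearGroup g)).exists_eq_mul
    choose gM' u' hu0' hu1' using fun j =>
      ((hM j).mul (isIntGL_specialLinearGroup g')).exists_eq_mul
    obtain ⟨c, hc⟩ := exists_symb_comp_eq_sum s M hM T hT gM gM'
      (g := g) (g' := g') (fun j => ⟨u j, hu j, hu' j⟩) (fun j => ⟨u' j, hu0' j, hu1' j⟩) m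
    rw [hc]
    exact Submodule.sum_mem _ fun j _ => Submodule.sum_mem _ fun i _ =>
      Submodule.smul_mem _ _ (symb_mem_symbLattice _ _ _)
  | zero => simp
  | add x y _ _ hx hy =>
    rw [LinearMap.add_comp]
    exact add_mem hx hy
  | smul a x _ hx =>
    rw [LinearMap.smul_comp]
    exact Submodule.smul_mem _ _ hx

end Fermat.Agent.HeckeFinite
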